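import Fermat.Agent.MordellAverage.Forms
import Fermat.Agent.CubicFormCount.Main
import Fermat.Agent.CubicFields.Sieve
import Fermat.Agent.MordellCurve.Torsion
import Fermat.Agent.MordellWeil.Summary
import Fermat.Agent.MordellWeil.Structure
import Mathlib.Analysis.SpecialFunctions.Sqrt

/-!
# The average rank of the Mordell curves is bounded

The cosets of the image of the dual isogeny go, at most two to one and with three exceptions, to
classes of cubic forms of discriminant `-108 k`, of which there are `O(K)` for `|k| ≤ K`; and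
`3 ^ rank` is at most the product of the two indices.
-/

set_option autoImplicit false
set_option linter.style.haveILetI false

noncomputable section

open WeierstrassCurve FA.Thue FA.DeloneFaddeev FA.CubicFormCount Filter
open scoped Classical Topology

namespace FA.MordellAverage

/-- The classes of discriminant `-108 k`. -/
def classesAt (k : ℤ) : Set (Set CubicForm) :=
  classSet '' {F | F.Anisotropic ∧ F.disc = -108 * k}

/-- The classes with `0 < |disc| ≤ 108 K`. -/
def classesUpTo (K : ℝ) : Set (Set CubicForm) :=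
  classes true Set.univ (108 * K) ∪ classes false Set.univ (108 * K)

theorem exists_class_bound : ∃ C : ℝ, 0 ≤ C ∧ ∀ K : ℕ, 1 ≤ K →
    ((classesUpTo K).ncard : ℝ) ≤ C * K := by
  have h : ∀ ε, ∃ B : ℝ, 0 ≤ B ∧ ∀ K : ℕ, 1 ≤ K →
      ((classes ε Set.univ (108 * (K : ℝ))).ncard : ℝ) ≤ B * K := by
    intro ε
    have ht := (tendsto_classes ε one_pos (Q := Set.univ) (fun _ _ _ _ => trivial)
      periodic_ones).comp ((tendsto_natCast_atTop_atTop (R := ℝ)).const_mul_atTop
        (by norm_num : (0 : ℝ) < 108))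
    obtain ⟨B, hB⟩ := ht.bddAbove_range
    refine ⟨max B 0 * 108, by positivity, fun K hK => ?_⟩
    have hK0 : (0 : ℝ) < 108 * K := mul_pos (by norm_num) (by exact_mod_cast hK)
    have := hB ⟨K, rfl⟩
    rw [Function.comp_apply, div_le_iff₀ hK0] at this
    refine this.trans ((mul_le_mul_of_nonneg_right (le_max_left B 0) hK0.le).trans_eq ?_)
    ring
  obtain ⟨B₁, hB₁, h₁⟩ := h true
  obtain ⟨B₂, hB₂, h₂⟩ := h false
  refine ⟨B₁ + B₂, by positivity, fun K hK => ?_⟩
  have := Set.ncard_union_le (classes true Set.univ (108 * (K : ℝ)))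
    (classes false Set.univ (108 * (K : ℝ)))
  refine le_trans (Nat.cast_le.mpr this) ?_
  push_cast
  linarith [h₁ K hK, h₂ K hK]

theorem classesUpTo_finite (K : ℝ) : (classesUpTo K).Finite :=
  (classes_finite true _ _).union (classes_finite false _ _)

theorem classesAt_subset {k : ℤ} (hk : k ≠ 0) {K : ℝ} (hkK : |(k : ℝ)| ≤ K) :
    classesAt k ⊆ classesUpTo K := by
  rintro c ⟨F, ⟨ha, hd⟩, rfl⟩
  rw [abs_le] at hkK
  rcases hk.lt_or_gt with h | h
  · refine Or.inl ⟨F, trivial, ha, ?_, ?_, rfl⟩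
    · rw [hd]; simp only [sgn, if_true]; push_cast
      have : (k : ℝ) < 0 := by exact_mod_cast h
      linarith
    · rw [hd]; simp only [sgn, if_true]; push_cast; linarith
  · refine Or.inr ⟨F, trivial, ha, ?_, ?_, rfl⟩
    · rw [hd]; simp [sgn]; exact_mod_cast h
    · rw [hd]; simp [sgn]; linarith

theorem classesAt_finite {k : ℤ} (hk : k ≠ 0) : (classesAt k).Finite :=
  (classesUpTo_finite _).subset (classesAt_subset hk le_rfl)

theorem classesAt_disjoint {k k' : ℤ} (h : k ≠ k') : Disjoint (classesAt k) (classesAt k') := by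
  rw [Set.disjoint_left]
  rintro c ⟨F, ⟨-, h1⟩, rfl⟩ ⟨G, ⟨-, h2⟩, e⟩
  have := twisted_disc (twisted_of_classSet e)
  omega

/-- The origin and the points with `x = 0`. -/
def smallPoints (k : ℚ) : Set (mord k).toAffine.Point :=
  {P | P = 0 ∨ ∃ (y : ℚ) (h : (mord k).toAffine.Nonsingular 0 y), P = .some 0 y h}

theorem smallPoints_bound (k : ℚ) :
    (smallPoints k).Finite ∧ (smallPoints k).ncard ≤ 3 := by
  by_cases hy : ∃ y : ℚ, y ^ 2 = k
  · obtain ⟨c, hc⟩ := hy
    let g : (mord k).toAffine.Point → Option ℚ := fun P => match P with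
      | .zero => none
      | .some _ y _ => some y
    set U : Finset (Option ℚ) := {none, some c, some (-c)}
    have hmap : ∀ P ∈ smallPoints k, g P ∈ U := by
      rintro P (rfl | ⟨y, h, rfl⟩)
      · exact Finset.mem_insert_self _ _
      · have := mord_equation.mp h.1
        have h2 : y ^ 2 = c ^ 2 := by linear_combination this - hc
        rcases sq_eq_sq_iff_eq_or_eq_neg.1 h2 with e | e <;> simp [U, g, e]
    have hinj : Set.InjOn g (smallPoints k) := by
      rintro P (rfl | ⟨x, h, rfl⟩) Q (rfl | ⟨x', h', rfl⟩) e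
      · rfl
      · exact absurd e (fun e' => Option.some_ne_none x' e'.symm)
      · exact absurd e (Option.some_ne_none x)
      · obtain rfl : x = x' := Option.some_inj.mp e
        rfl
    refine ⟨Set.Finite.of_finite_image (U.finite_toSet.subset (Set.image_subset_iff.mpr hmap)) hinj,
      ?_⟩
    calc (smallPoints k).ncard ≤ (U : Set (Option ℚ)).ncard :=
          Set.ncard_le_ncard_of_injOn g hmap hinj U.finite_toSet
      _ = U.card := Set.ncard_coe_finset U
      _ ≤ 3 := Finset.card_le_three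
  · have e : smallPoints k = {0} := by
      refine Set.eq_singleton_iff_unique_mem.mpr ⟨Or.inl rfl, ?_⟩
      rintro P (rfl | ⟨y, h, rfl⟩)
      · rfl
      · exact absurd ⟨y, by linear_combination mord_equation.mp h.1⟩ hy
    rw [e]
    exact ⟨Set.finite_singleton _, by simp⟩

/-- **The descent count.** -/
theorem dualIndex_le {k : ℤ} (hk : k ≠ 0) :
    dualIndex (k : ℚ) ≠ 0 ∧ dualIndex (k : ℚ) ≤ 3 + 2 * (classesAt k).ncard := by
  have hk' : (k : ℚ) ≠ 0 := Int.cast_ne_zero.mpr hk
  rw [dualIndex_eq hk', AddSubgroup.index]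
  set H := (dualHom hk').range
  obtain ⟨hZ, hZ3⟩ := smallPoints_bound (k : ℚ)
  set mk : (mord (k : ℚ)).toAffine.Point → (mord (k : ℚ)).toAffine.Point ⧸ H := QuotientAddGroup.mk
  set Z : Set ((mord (k : ℚ)).toAffine.Point ⧸ H) := mk '' smallPoints (k : ℚ)
  have hout : ∀ q, q ∉ Z → ∃ (x y : ℚ) (h : (mord (k : ℚ)).toAffine.Nonsingular x y),
      x ≠ 0 ∧ mk (.some x y h) = q ∧ Affine.Point.some x y h ∉ H := by
    intro q hq
    obtain ⟨P, rfl⟩ : ∃ P, mk P = q := QuotientAddGroup.mk_surjective q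
    rcases P with _ | ⟨x, y, h⟩
    · exact absurd ⟨0, Or.inl rfl, rfl⟩ hq
    refine ⟨x, y, h, ?_, rfl, fun hd => hq ⟨0, Or.inl rfl, ?_⟩⟩
    · rintro rfl
      exact hq ⟨_, Or.inr ⟨y, h, rfl⟩, rfl⟩
    · exact ((QuotientAddGroup.eq_zero_iff _).mpr hd).symm
  choose X Y hP hx hmk hnd using hout
  let Φ : ∀ q (hq : q ∉ Z), PointForm k (X q hq) (Y q hq) := fun q hq =>
    Classical.choice (nonempty_pointForm (mord_equation.mp (hP q hq).1))
  let c : ↥Zᶜ → classesAt k := fun q => ⟨classSet (Φ q.1 q.2).F, (Φ q.1 q.2).F,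
    ⟨(Φ q.1 q.2).anisotropic hk' (hP q.1 q.2) (hnd q.1 q.2), (Φ q.1 q.2).hdisc⟩, rfl⟩
  have htwo : ∀ a b, c a = c b → a.1 = b.1 ∨ a.1 = -b.1 := by
    intro a b e
    have e' : classSet (Φ a.1 a.2).F = classSet (Φ b.1 b.2).F := congrArg Subtype.val e
    obtain ⟨σ, hσ, w, hw⟩ := (Φ a.1 a.2).cube_product (Φ b.1 b.2)
      (mord_equation.mp (hP b.1 b.2).1) (hx a.1 a.2) (hx b.1 b.2) (twisted_of_classSet e')
    rw [← hmk a.1 a.2, ← hmk b.1 b.2]
    set P := Affine.Point.some _ _ (hP a.1 a.2)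
    set Q := Affine.Point.some _ _ (hP b.1 b.2) with hQ
    by_cases hxx : X a.1 a.2 = X b.1 b.2
    · rcases Affine.Y_eq_of_X_eq (hP a.1 a.2).1 (hP b.1 b.2).1 hxx with hY | hY
      · left
        congr 1
        simp only [P, Q, Affine.Point.some.injEq]
        exact ⟨hxx, hY⟩
      · right
        rw [← QuotientAddGroup.mk_neg]
        congr 1
        simp only [P, Q, Affine.Point.neg_some, Affine.Point.some.injEq]
        exact ⟨hxx, hY⟩
    · rcases hσ with rfl | rfl
      · right
        have h := add_mem_range_of_cube hk' (hP a.1 a.2) (hP b.1 b.2) (hx a.1 a.2) (hx b.1 b.2) hxx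
          (w := w) (by simpa using hw)
        rw [← QuotientAddGroup.mk_neg]
        refine QuotientAddGroup.eq.mpr ?_
        rw [show -P + -Q = -(P + Q) by abel]
        exact neg_mem h
      · left
        have h := add_mem_range_of_cube hk' (hP a.1 a.2)
          ((Affine.nonsingular_neg (W' := (mord (k : ℚ)).toAffine) _ _).mpr (hP b.1 b.2))
          (hx a.1 a.2) (hx b.1 b.2) hxx (w := w) (by simpa [Affine.negY] using hw)
        rw [← Affine.Point.neg_some (hP b.1 b.2), ← hQ] at h
        refine QuotientAddGroup.eq.mpr ?_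
        rw [show -P + Q = -(P + -Q) by abel]
        exact neg_mem h
  let d : ↥Zᶜ → classesAt k × Bool := fun q =>
    (c q, decide (@Function.invFun _ _ ⟨q⟩ c (c q) = q))
  have hd : Function.Injective d := by
    intro a b e
    have e1 : c a = c b := congrArg Prod.fst e
    have e2 := congrArg Prod.snd e
    simp only [d, decide_eq_decide] at e2
    set r := @Function.invFun _ _ ⟨a⟩ c (c a)
    have hr : c r = c a := @Function.invFun_eq _ _ ⟨a⟩ c (c a) ⟨a, rfl⟩
    have hrb : @Function.invFun _ _ ⟨b⟩ c (c b) = r := by rw [← e1]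
    rw [hrb] at e2
    by_cases ha : r = a
    · exact ha.symm.trans (e2.mp ha)
    · have hb : r ≠ b := fun hb => ha (e2.mpr hb)
      rcases htwo r a hr with h | h
      · exact absurd (Subtype.ext h) ha
      rcases htwo r b (hr.trans e1) with h' | h'
      · exact absurd (Subtype.ext h') hb
      exact Subtype.ext (neg_injective (h.symm.trans h'))
  haveI := (classesAt_finite hk).to_subtype
  have hfc : Zᶜ.Finite := Set.finite_coe_iff.mp (Finite.of_injective d hd)
  have huniv : (Set.univ : Set ((mord (k : ℚ)).toAffine.Point ⧸ H)).Finite := by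
    rw [← Set.union_compl_self Z]
    exact (hZ.image mk).union hfc
  haveI : Finite ((mord (k : ℚ)).toAffine.Point ⧸ H) := Set.finite_univ_iff.mp huniv
  refine ⟨Nat.card_pos.ne', ?_⟩
  rw [← Set.ncard_univ, ← Set.union_compl_self Z]
  refine (Set.ncard_union_le _ _).trans (add_le_add ((Set.ncard_image_le hZ).trans hZ3) ?_)
  rw [← Nat.card_coe_set_eq, ← Nat.card_coe_set_eq]
  refine (Nat.card_le_card_of_injective d hd).trans_eq ?_
  rw [Nat.card_prod, Nat.card_eq_fintype_card (α := Bool), Fintype.card_bool, mul_comm]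

/-- The triples of a finitely generated group have index at least `3 ^ r`. -/
theorem three_pow_rank_le_index {G : Type*} [AddCommGroup G] [AddGroup.FG G]
    [Finite (AddCommGroup.torsion G)] (hD : (nsmulAddMonoidHom (α := G) 3).range.index ≠ 0) :
    3 ^ Module.finrank ℤ G ≤ (nsmulAddMonoidHom (α := G) 3).range.index := by
  obtain ⟨r, ⟨e⟩⟩ := FA.MordellWeil.exists_equiv_torsion_prod G
  set T := AddCommGroup.torsion G
  have hr : Module.finrank ℤ G = r := by
    let s := LinearMap.snd ℤ T (Fin r → ℤ)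
    have h0 : Module.finrank ℤ (LinearMap.ker s) = 0 := Module.finrank_eq_zero_iff.mpr fun x =>
      ⟨Nat.card T, Int.natCast_ne_zero.2 Nat.card_pos.ne', Subtype.ext (Prod.ext
        (by show (Nat.card T : ℤ) • x.1.1 = 0; rw [natCast_zsmul, card_nsmul_eq_zero'])
        (by show (Nat.card T : ℤ) • x.1.2 = 0; rw [show x.1.2 = 0 from x.2, smul_zero]))⟩
    haveI : Module.Finite ℤ G := Module.Finite.iff_addGroup_fg.mpr inferInstance
    haveI : Module.Finite ℤ (T × (Fin r → ℤ)) := Module.Finite.equiv e.toIntLinearEquiv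
    have h1 := (LinearMap.ker s).finrank_quotient_add_finrank
    rw [h0, (LinearMap.quotKerEquivOfSurjective s LinearMap.snd_surjective).finrank_eq,
      Module.finrank_pi, Fintype.card_fin] at h1
    rw [show Module.finrank ℤ G = _ from e.toIntLinearEquiv.finrank_eq]
    omega
  rw [hr]
  let f : G →+ (Fin r → ZMod 3) :=
    (((Int.castAddHom (ZMod 3)).compLeft (Fin r)).comp (AddMonoidHom.snd T _)).comp
      e.toAddMonoidHom
  have hsurj : Function.Surjective f := fun z => by
    choose g hg using fun i => ZMod.intCast_surjective (z i)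
    refine ⟨e.symm (0, g), ?_⟩
    funext i
    simp [f, hg]
  have hle : (nsmulAddMonoidHom (α := G) 3).range ≤ f.ker := by
    rintro _ ⟨g, rfl⟩
    rw [AddMonoidHom.mem_ker, nsmulAddMonoidHom_apply, map_nsmul]
    funext i
    show 3 • f g i = 0
    rw [nsmul_eq_mul, show ((3 : ℕ) : ZMod 3) = 0 from ZMod.natCast_self 3, zero_mul]
  refine le_of_eq_of_le ?_ (Nat.le_of_dvd (Nat.pos_of_ne_zero hD)
    (AddSubgroup.index_dvd_of_le hle))
  rw [AddSubgroup.index_ker, AddMonoidHom.range_eq_top.2 hsurj, AddSubgroup.card_top,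
    Nat.card_pi, Finset.prod_const, Finset.card_univ, Fintype.card_fin, Nat.card_zmod]

/-- The rank of `y² = x³ + k`. -/
def mordRank (k : ℤ) : ℕ := Module.finrank ℤ (mord (k : ℚ)).toAffine.Point

/-- **`3 ^ rank` is at most the product of the two indices.** -/
theorem three_pow_rank_le {k : ℤ} (hk : k ≠ 0) :
    3 ^ mordRank k ≤ dualIndex (k : ℚ) * dualIndex ((-27 * k : ℤ) : ℚ) := by
  have hk' : (k : ℚ) ≠ 0 := Int.cast_ne_zero.mpr hk
  have e : ((-27 * k : ℤ) : ℚ) = -27 * (k : ℚ) := by push_cast; ring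
  have h2 := (dualIndex_le (mul_ne_zero (by norm_num : (-27 : ℤ) ≠ 0) hk)).1
  rw [e] at h2 ⊢
  obtain ⟨h0, hle⟩ := index_triples_le hk' (dualIndex_le hk).1 h2
  haveI := isElliptic_mord hk'
  haveI := FA.MordellWeil.mordell (mord (k : ℚ))
  haveI : Finite (AddCommGroup.torsion (mord (k : ℚ)).toAffine.Point) :=
    (FA.MordellCurve.natCard_torsion_dvd_six hk).1
  exact (three_pow_rank_le_index h0).trans hle

theorem sqrt_pow_rank_le {k : ℤ} (hk : k ≠ 0) :
    Real.sqrt 3 ^ mordRank k ≤
      ((dualIndex (k : ℚ) : ℝ) + dualIndex ((-27 * k : ℤ) : ℚ)) / 2 := by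
  have h : ((3 : ℝ)) ^ mordRank k ≤
      (dualIndex (k : ℚ) : ℝ) * dualIndex ((-27 * k : ℤ) : ℚ) := by
    exact_mod_cast three_pow_rank_le hk
  refine (pow_le_pow_iff_left₀ (by positivity) (by positivity) two_ne_zero).mp ?_
  rw [← pow_mul, mul_comm, pow_mul, Real.sq_sqrt (by norm_num)]
  nlinarith [sq_nonneg ((dualIndex (k : ℚ) : ℝ) - dualIndex ((-27 * k : ℤ) : ℚ))]

/-- The non-zero `k` with `|k| ≤ K`. -/
def kValues (K : ℕ) : Finset ℤ := (Finset.Icc (-(K : ℤ)) K).erase 0

theorem mem_kValues {K : ℕ} {k : ℤ} : k ∈ kValues K ↔ k ≠ 0 ∧ |k| ≤ K := by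
  simp [kValues, abs_le]

theorem card_kValues (K : ℕ) : (kValues K).card = 2 * K := by
  rw [kValues, Finset.card_erase_of_mem (by simp), Int.card_Icc]
  omega

/-- The sixth-power-free `k` with `|k| ≤ K`. -/
def freeValues (K : ℕ) : Finset ℤ :=
  (kValues K).filter fun k => ∀ q : ℕ, q.Prime → ¬ (q : ℤ) ^ 6 ∣ k

theorem card_freeValues (K : ℕ) : (K : ℝ) ≤ 2 * (freeValues K).card := by
  set S := Finset.Ioc (0 : ℕ) K
  set bad : ℕ → Finset ℕ := fun q => S.filter (q ^ 6 ∣ ·)
  set P := (Finset.Ico 2 (K + 2)).filter Nat.Prime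
  have hsub : S ⊆ (S.filter fun n : ℕ => (n : ℤ) ∈ freeValues K) ∪ P.biUnion bad := by
    intro n hn
    obtain ⟨h1, h2⟩ := Finset.mem_Ioc.mp hn
    by_cases hb : ∃ q : ℕ, q.Prime ∧ q ^ 6 ∣ n
    · obtain ⟨q, hq, hd⟩ := hb
      have hq1 : q ≤ n := (Nat.le_self_pow (by norm_num) q).trans (Nat.le_of_dvd h1 hd)
      exact Finset.mem_union_right _ (Finset.mem_biUnion.mpr ⟨q, Finset.mem_filter.mpr
        ⟨Finset.mem_Ico.mpr ⟨hq.two_le, by omega⟩, hq⟩, Finset.mem_filter.mpr ⟨hn, hd⟩⟩)
    · push Not at hb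
      refine Finset.mem_union_left _ (Finset.mem_filter.mpr ⟨hn, Finset.mem_filter.mpr
        ⟨mem_kValues.mpr ⟨by omega, by rw [Nat.abs_cast]; exact_mod_cast h2⟩, fun q hq hd => ?_⟩⟩)
      exact hb q hq (Int.natCast_dvd_natCast.mp (by push_cast; exact hd))
  have h := (Finset.card_le_card hsub).trans ((Finset.card_union_le _ _).trans
    (Nat.add_le_add_left Finset.card_biUnion_le _))
  have hgood : (S.filter fun n : ℕ => (n : ℤ) ∈ freeValues K).card ≤ (freeValues K).card :=
    Finset.card_le_card_of_injOn (fun n : ℕ => (n : ℤ))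
      (fun n hn => (Finset.mem_filter.mp hn).2) fun a _ b _ e => Nat.cast_injective e
  have hbad : ((∑ q ∈ P, (bad q).card : ℕ) : ℝ) ≤ (K : ℝ) / 2 := by
    push_cast
    calc ∑ q ∈ P, ((bad q).card : ℝ)
        ≤ ∑ q ∈ P, (K : ℝ) / 16 * ((q : ℝ) ^ 2)⁻¹ := by
          refine Finset.sum_le_sum fun q hq => ?_
          have hq2 : (2 : ℝ) ≤ q := by exact_mod_cast (Finset.mem_filter.mp hq).2.two_le
          simp only [bad, S, Nat.Ioc_filter_dvd_card_eq_div]
          refine Nat.cast_div_le.trans ?_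
          push_cast
          rw [← div_eq_mul_inv, div_div]
          refine div_le_div_of_nonneg_left (by positivity) (by positivity) ?_
          nlinarith [pow_le_pow_left₀ (by norm_num : (0 : ℝ) ≤ 2) hq2 4, sq_nonneg (q : ℝ)]
      _ ≤ (K : ℝ) / 16 * 1 := by
          rw [← Finset.mul_sum]
          refine mul_le_mul_of_nonneg_left ((Finset.sum_le_sum_of_subset_of_nonneg
            (Finset.filter_subset _ _) fun _ _ _ => by positivity).trans
            ((FA.CubicFields.sum_inv_sq_le (by norm_num) _).trans ?_)) (by positivity)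
          norm_num
      _ ≤ _ := by linarith [(Nat.cast_nonneg K : (0 : ℝ) ≤ K)]
  rw [Nat.card_Ioc, Nat.sub_zero] at h
  have h' : (K : ℝ) ≤ ((freeValues K).card : ℝ) + (∑ q ∈ P, (bad q).card : ℕ) := by
    exact_mod_cast h.trans (Nat.add_le_add_right hgood _)
  linarith

/-- **The sum of the indices.** -/
theorem exists_index_bound : ∃ C : ℝ, 0 ≤ C ∧ ∀ K : ℕ, 1 ≤ K →
    ∑ k ∈ kValues K, (dualIndex (k : ℚ) : ℝ) ≤ C * K := by
  obtain ⟨C, hC0, hC⟩ := exists_class_bound
  refine ⟨6 + 2 * C, by positivity, fun K hK => ?_⟩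
  have hsub : ∀ k ∈ kValues K, classesAt k ⊆ classesUpTo K := fun k hk => by
    obtain ⟨h1, h2⟩ := mem_kValues.mp hk
    exact classesAt_subset h1 (by rw [← Int.cast_abs]; exact_mod_cast h2)
  have hclass : ∑ k ∈ kValues K, (classesAt k).ncard ≤ (classesUpTo K).ncard := by
    rw [← finsum_mem_coe_finset,
      ← Set.Finite.ncard_biUnion (kValues K).finite_toSet
        (fun k hk => (classesUpTo_finite _).subset (hsub k hk))
        (fun k _ k' _ hne => classesAt_disjoint hne)]
    exact Set.ncard_le_ncard (Set.iUnion₂_subset hsub) (classesUpTo_finite _)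
  calc ∑ k ∈ kValues K, (dualIndex (k : ℚ) : ℝ)
      ≤ ∑ k ∈ kValues K, ((3 : ℝ) + 2 * (classesAt k).ncard) := by
        refine Finset.sum_le_sum fun k hk => ?_
        exact_mod_cast (dualIndex_le (mem_kValues.mp hk).1).2
    _ ≤ (6 + 2 * C) * K := by
        rw [Finset.sum_add_distrib, Finset.sum_const, card_kValues, nsmul_eq_mul, ← Finset.mul_sum]
        have := hC K hK
        have h' : ((∑ k ∈ kValues K, (classesAt k).ncard : ℕ) : ℝ) ≤ (classesUpTo K).ncard := by
          exact_mod_cast hclass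
        push_cast at h' ⊢
        linarith

/-- **The sum of `√3 ^ rank`.** -/
theorem exists_rank_bound : ∃ C : ℝ, 0 ≤ C ∧ ∀ K : ℕ, 1 ≤ K →
    ∑ k ∈ kValues K, Real.sqrt 3 ^ mordRank k ≤ C * K := by
  obtain ⟨C, hC0, hC⟩ := exists_index_bound
  refine ⟨14 * C, by positivity, fun K hK => ?_⟩
  have h2 : ∑ k ∈ kValues K, (dualIndex ((-27 * k : ℤ) : ℚ) : ℝ) ≤ C * (27 * K : ℕ) := by
    refine le_trans ?_ (hC (27 * K) (by omega))
    rw [← Finset.sum_image (f := fun l : ℤ => (dualIndex (l : ℚ) : ℝ)) (g := fun k : ℤ => -27 * k)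
      fun a _ b _ e => mul_left_cancel₀ (by norm_num) e]
    refine Finset.sum_le_sum_of_subset_of_nonneg (fun l hl => ?_) fun _ _ _ => Nat.cast_nonneg _
    obtain ⟨k, hk, rfl⟩ := Finset.mem_image.mp hl
    obtain ⟨a, b⟩ := mem_kValues.mp hk
    refine mem_kValues.mpr ⟨mul_ne_zero (by norm_num) a, ?_⟩
    rw [abs_mul]
    push_cast
    norm_num
    linarith
  calc ∑ k ∈ kValues K, Real.sqrt 3 ^ mordRank k
      ≤ ∑ k ∈ kValues K, ((dualIndex (k : ℚ) : ℝ) + dualIndex ((-27 * k : ℤ) : ℚ)) / 2 :=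
        Finset.sum_le_sum fun k hk => sqrt_pow_rank_le (mem_kValues.mp hk).1
    _ ≤ _ := by
        rw [← Finset.sum_div, Finset.sum_add_distrib]
        have := hC K hK
        push_cast at h2 ⊢
        linarith

end FA.MordellAverage
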