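import Fermat.Agent.MordellAverage.Rational
import Mathlib.Algebra.QuadraticAlgebra.Basic
import Mathlib.Algebra.Order.Ring.Pow

/-!
# The cubic descent

With `s² = k`: if the cubic `t³ - 3 x t + 2 y` of a point of `y² = x³ + k` has a rational root, the
point is in the image of the dual isogeny, and if `(y + s) (y' + s)` is a cube in `ℚ[s]` then so
is the sum of the two points.
-/

set_option autoImplicit false

noncomputable section

open WeierstrassCurve

namespace FA.MordellAverage

variable {k : ℚ}

/-- **A rational root of the cubic: in the image.** -/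
theorem mem_range_of_root (hk : k ≠ 0) {x y t : ℚ} (h : (mord k).toAffine.Nonsingular x y)
    (ht : t ^ 3 - 3 * x * t + 2 * y = 0) : Affine.Point.some x y h ∈ (dualHom hk).range := by
  have e := mord_equation.mp h.1
  set a := t ^ 2 - x with ha
  have key : a ^ 2 * (t ^ 2 - 4 * x) = 4 * k := by
    rw [ha]
    linear_combination (t ^ 3 - 3 * x * t - 2 * y) * ht + 4 * e
  have ha0 : a ≠ 0 := by
    intro h0
    rw [h0] at key
    exact hk (by linear_combination -(1 / 4) * key)
  have hQ : (-(9 / 2) * t * a) ^ 2 = (3 * a) ^ 3 + -27 * k := by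
    rw [ha] at key ⊢
    linear_combination (27 / 4) * -key
  refine ⟨.some (3 * a) (-(9 / 2) * t * a) (mord_nonsingular (neg27_ne hk) hQ), ?_⟩
  rw [dualHom_some hk (mul_ne_zero three_ne_zero ha0)]
  simp only [Affine.Point.some.injEq]
  constructor
  · field_simp
    rw [ha] at key ⊢
    linear_combination 27 * key
  · field_simp
    rw [ha] at key ⊢
    linear_combination 486 * t * key - 729 * (t ^ 2 - x) ^ 2 * ht

/-- `ℚ[s]` with `s² = k`. -/
abbrev SqAlg (k : ℚ) : Type := QuadraticAlgebra ℚ k 0

/-- `s`. -/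
abbrev sRoot (k : ℚ) : SqAlg k := ⟨0, 1⟩

/-- A rational number in the algebra. -/
abbrev ratS (k : ℚ) : ℚ →+* SqAlg k := algebraMap ℚ (SqAlg k)

theorem sRoot_sq (k : ℚ) : sRoot k ^ 2 = ratS k k := by
  ext <;> simp [pow_two]

/-- The norm. -/
def sqNorm (z : SqAlg k) : ℚ := z.re ^ 2 - k * z.im ^ 2

theorem sqNorm_mul (z w : SqAlg k) : sqNorm (z * w) = sqNorm z * sqNorm w := by
  simp [sqNorm]; ring

theorem sqNorm_pow (z : SqAlg k) : sqNorm (z ^ 3) = sqNorm z ^ 3 := by
  rw [show z ^ 3 = z * z * z by ring, sqNorm_mul, sqNorm_mul]; ring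

theorem sqNorm_rat_add (k y : ℚ) : sqNorm (ratS k y + sRoot k) = y ^ 2 - k := by
  simp [sqNorm]

theorem mul_conj (z : SqAlg k) : z * ⟨z.re, -z.im⟩ = ratS k (sqNorm z) := by
  ext <;> simp [sqNorm, pow_two] <;> ring

/-- **A cube: in the image.** -/
theorem mem_range_of_cube (hk : k ≠ 0) {x y : ℚ} (h : (mord k).toAffine.Nonsingular x y)
    {z : SqAlg k} (hz : ratS k y + sRoot k = z ^ 3) :
    Affine.Point.some x y h ∈ (dualHom hk).range := by
  have e := mord_equation.mp h.1
  have hn : x = sqNorm z := by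
    refine (Odd.strictMono_pow (by decide : Odd 3)).injective ?_
    simp only [← sqNorm_pow, ← hz, sqNorm_rat_add]
    linear_combination -e
  have hre := congrArg QuadraticAlgebra.re hz
  simp [pow_succ] at hre
  refine mem_range_of_root hk (t := -2 * z.re) h ?_
  rw [hn, sqNorm]
  linear_combination 2 * hre

/-- **A cube product: the sum is in the image.** -/
theorem add_mem_range_of_cube (hk : k ≠ 0) {x y x' y' : ℚ}
    (h : (mord k).toAffine.Nonsingular x y) (h' : (mord k).toAffine.Nonsingular x' y')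
    (hx : x ≠ 0) (hx' : x' ≠ 0) (hxx : x ≠ x') {w : SqAlg k}
    (hw : (ratS k y + sRoot k) * (ratS k y' + sRoot k) = w ^ 3) :
    Affine.Point.some x y h + Affine.Point.some x' y' h' ∈ (dualHom hk).range := by
  have e := mord_equation.mp h.1
  have e' := mord_equation.mp h'.1
  rw [Affine.Point.add_of_X_ne hxx]
  set m := (mord k).toAffine.slope x x' y y' with hm
  have hm' : m = (y - y') / (x - x') := Affine.slope_of_X_ne hxx
  set x₃ := (mord k).toAffine.addX x x' m with hx₃
  have hx₃' : x₃ = m ^ 2 - x - x' := by rw [hx₃, Affine.addX]; simp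
  set y₃ := (mord k).toAffine.addY x x' y m with hy₃
  set n := y - m * x with hn
  have hy₃' : -y₃ = m * x₃ + n := by
    rw [hy₃, Affine.addY, Affine.negY, Affine.negAddY, ← hx₃, hn]; simp; ring
  have hk' : m * (x - x') = y - y' := by rw [hm', div_mul_cancel₀ _ (sub_ne_zero.mpr hxx)]
  have hy' : y' = m * x' + n := by linear_combination hk'
  have hA : x * x' + x * x₃ + x' * x₃ = -2 * m * n := by
    refine mul_left_cancel₀ (sub_ne_zero.mpr hxx) ?_
    rw [hx₃']
    simp only [hn]
    linear_combination e - e' + (y' + y - m * x + m * x') * hk'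
  have hB : k = n ^ 2 - x * x' * x₃ := by
    simp only [hn] at hA ⊢
    linear_combination -e + x * hA + (-(x ^ 2)) * hx₃'
  -- the third factor completes a cube
  have hprod : (ratS k y + sRoot k) * (ratS k y' + sRoot k) * (ratS k (-y₃) + sRoot k) =
      (ratS k n + sRoot k) ^ 3 := by
    rw [hy₃', hy', show y = m * x + n by rw [hn]; ring]
    have hs := sRoot_sq k
    have a := congrArg (ratS k) hA
    have b := congrArg (ratS k) hB
    have c := congrArg (ratS k) hx₃'
    simp only [map_add, map_sub, map_mul, map_pow, map_neg, map_ofNat] at a b c ⊢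
    linear_combination ratS k m ^ 2 * (ratS k n + sRoot k) * a +
      ratS k m * (ratS k n + sRoot k) ^ 2 * c + ratS k m ^ 3 * hs + ratS k m ^ 3 * b
  rw [hw] at hprod
  set c := x * x'
  have hN : sqNorm w = c := by
    refine (Odd.strictMono_pow (by decide : Odd 3)).injective ?_
    simp only [← sqNorm_pow, ← hw, sqNorm_mul, sqNorm_rat_add, c]
    rw [show y ^ 2 - k = x ^ 3 by linear_combination e,
      show y' ^ 2 - k = x' ^ 3 by linear_combination e']
    ring
  have hc : c ≠ 0 := mul_ne_zero hx hx'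
  have hcube : ratS k (-y₃) + sRoot k =
      ((ratS k n + sRoot k) * ⟨w.re, -w.im⟩ * ratS k c⁻¹) ^ 3 := by
    have h1 : ratS k c * ratS k c⁻¹ = 1 := by rw [← map_mul, mul_inv_cancel₀ hc, map_one]
    have h2 : w * ⟨w.re, -w.im⟩ = ratS k c := by rw [mul_conj, hN]
    calc ratS k (-y₃) + sRoot k
        = (w * ⟨w.re, -w.im⟩ * ratS k c⁻¹) ^ 3 * (ratS k (-y₃) + sRoot k) := by
          rw [h2, h1, one_pow, one_mul]
      _ = _ := by rw [mul_pow, mul_pow, mul_pow, mul_pow, ← hprod]; ring
  have hmem := mem_range_of_cube hk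
    ((Affine.nonsingular_neg (W' := (mord k).toAffine) _ _).mpr
      (Affine.nonsingular_add h h' fun ee => hxx ee.1))
    (z := (ratS k n + sRoot k) * ⟨w.re, -w.im⟩ * ratS k c⁻¹)
    (by simpa [Affine.negY, ← hm, ← hy₃] using hcube)
  rw [← Affine.Point.neg_some (Affine.nonsingular_add h h' fun ee => hxx ee.1)] at hmem
  simpa using neg_mem hmem

end FA.MordellAverage
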