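import Fermat.Agent.MordellAverage.Descent
import Fermat.Agent.CubicFormCount.Classes

/-!
# The cubic form of a rational point

A point of `y² = x³ + k` gives an integral binary cubic form of discriminant `-108 k`; a rational
zero puts the point in the image of the dual isogeny, and equivalent forms come from points whose
sum or difference is in that image.
-/

set_option autoImplicit false

noncomputable section

open WeierstrassCurve FA.Thue FA.DeloneFaddeev FA.CubicFormCount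

namespace FA.MordellAverage

/-- The value at `(1, 0)` of the cubic covariant. -/
def covT (f : CubicForm) : ℤ := 2 * f.b ^ 3 - 9 * f.a * f.b * f.c + 27 * f.a ^ 2 * f.d

/-- The cubic covariant. -/
def covEval (f : CubicForm) {R : Type*} [CommRing R] (p r : R) : R :=
  (covT f : R) * p ^ 3 +
    3 * ((f.b : R) ^ 2 * f.c - 6 * f.a * f.c ^ 2 + 9 * f.a * f.b * f.d) * p ^ 2 * r -
    3 * ((f.b : R) * f.c ^ 2 - 6 * f.b ^ 2 * f.d + 9 * f.a * f.c * f.d) * p * r ^ 2 -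
    (2 * (f.c : R) ^ 3 - 9 * f.b * f.c * f.d + 27 * f.a * f.d ^ 2) * r ^ 3

theorem covT_act (f : CubicForm) (p q r s : ℤ) :
    covT (f.act p q r s) = (p * s - q * r) ^ 3 * covEval f p r := by
  simp only [covT, covEval, CubicForm.act, CubicForm.eval, Int.cast_id]
  ring

/-- With `δ² = -3 disc` the covariant plus `3 δ f` is a fixed multiple of a cube. -/
theorem cube_identity (f : CubicForm) {R : Type*} [CommRing R] (δ p r : R)
    (hδ : δ ^ 2 = -3 * (f.disc : R)) :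
    8 * ((f.b : R) ^ 2 - 3 * f.a * f.c) ^ 3 * (covEval f p r + 3 * δ * f.eval p r) =
      ((covT f : R) + 3 * δ * f.a) * (2 * ((f.b : R) ^ 2 - 3 * f.a * f.c) * p +
        ((f.b : R) * f.c - 9 * f.a * f.d + δ) * r) ^ 3 := by
  simp only [covEval, covT, CubicForm.eval, CubicForm.disc] at hδ ⊢
  push_cast at hδ ⊢
  linear_combination -(36 * (f.a : R) * ((f.b : R) ^ 2 - 3 * f.a * f.c) ^ 2 * p ^ 2 * r +
    (18 * (f.a : R) * ((f.b : R) ^ 2 - 3 * f.a * f.c) * δ +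
      6 * ((f.b : R) ^ 2 - 3 * f.a * f.c) *
        (2 * (f.b : R) ^ 3 - 9 * f.a * f.b * f.c + 27 * f.a ^ 2 * f.d) +
      36 * (f.a : R) * ((f.b : R) ^ 2 - 3 * f.a * f.c) *
        ((f.b : R) * f.c - 9 * f.a * f.d)) * p * r ^ 2 +
    (3 * (f.a : R) * δ ^ 2 +
      ((2 * (f.b : R) ^ 3 - 9 * f.a * f.b * f.c + 27 * f.a ^ 2 * f.d) +
        9 * f.a * ((f.b : R) * f.c - 9 * f.a * f.d)) * δ +
      3 * (2 * (f.b : R) ^ 3 - 9 * f.a * f.b * f.c + 27 * f.a ^ 2 * f.d) *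
        ((f.b : R) * f.c - 9 * f.a * f.d) +
      9 * f.a * ((f.b : R) * f.c - 9 * f.a * f.d) ^ 2 -
      9 * f.a * ((f.b : R) ^ 2 * f.c ^ 2 - 4 * f.a * f.c ^ 3 - 4 * f.b ^ 3 * f.d -
        27 * f.a ^ 2 * f.d ^ 2 + 18 * f.a * f.b * f.c * f.d)) * r ^ 3) * hδ

/-- An integral cubic form attached to a point. -/
structure PointForm (k : ℤ) (x y : ℚ) where
  /-- The form. -/
  F : CubicForm
  /-- The numerator of `x`. -/
  X : ℤ
  /-- The numerator of `y`. -/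
  Y : ℤ
  /-- The denominator. -/
  D : ℤ
  hD : D ≠ 0
  hx : x * (D : ℚ) ^ 2 = X
  hy : y * (D : ℚ) ^ 3 = Y
  ha : F.a = D ^ 3
  hh : F.b ^ 2 - 3 * F.a * F.c = 9 * X
  ht : covT F = 54 * Y
  hdisc : F.disc = -108 * k
  hb3 : 3 ∣ F.b
  hc3 : 3 ∣ F.c

theorem nonempty_pointForm {k : ℤ} {x y : ℚ} (hxy : y ^ 2 = x ^ 3 + (k : ℚ)) :
    Nonempty (PointForm k x y) := by
  have e : y.num ^ 2 * (x.den : ℤ) ^ 3 = (x.num ^ 3 + k * (x.den : ℤ) ^ 3) * (y.den : ℤ) ^ 2 := by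
    have hxd : (x.den : ℚ) ≠ 0 := by exact_mod_cast x.den_nz
    have hyd : (y.den : ℚ) ≠ 0 := by exact_mod_cast y.den_nz
    rw [← x.num_div_den, ← y.num_div_den] at hxy
    field_simp at hxy
    exact_mod_cast (by linear_combination hxy : (y.num : ℚ) ^ 2 * (x.den : ℚ) ^ 3 =
      ((x.num : ℚ) ^ 3 + k * (x.den : ℚ) ^ 3) * (y.den : ℚ) ^ 2)
  have hpow : x.den ^ 3 = y.den ^ 2 := by
    have h1 : IsCoprime ((x.den : ℤ) ^ 3) (x.num ^ 3 + k * (x.den : ℤ) ^ 3) :=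
      (Rat.isCoprime_num_den x).symm.pow.add_mul_right_right _
    have h2 : IsCoprime ((y.den : ℤ) ^ 2) (y.num ^ 2) := (Rat.isCoprime_num_den y).symm.pow
    refine Nat.dvd_antisymm (Int.natCast_dvd_natCast.1 ?_) (Int.natCast_dvd_natCast.1 ?_) <;>
      push_cast
    · exact h1.dvd_of_dvd_mul_left ⟨y.num ^ 2, by linarith⟩
    · exact h2.dvd_of_dvd_mul_left ⟨x.num ^ 3 + k * (x.den : ℤ) ^ 3, by linarith⟩
  obtain ⟨d, hxd, hyd⟩ := Nat.exists_eq_pow_of_exponent_coprime_of_pow_eq_pow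
    (by decide : Nat.Coprime 3 2) hpow
  have hd0 : (d : ℤ) ≠ 0 := by
    intro h; exact x.den_nz (by rw [hxd]; simp [Int.natCast_eq_zero.1 h])
  set X := x.num with hX
  set Y := y.num with hY
  have hYX : Y ^ 2 = X ^ 3 + k * (d : ℤ) ^ 6 := by
    rw [hxd, hyd] at e
    push_cast at e
    exact mul_right_cancel₀ (pow_ne_zero 6 hd0) (by linear_combination e)
  obtain ⟨u, v, huv⟩ : IsCoprime X ((d : ℤ) ^ 6) := by
    have h := Rat.isCoprime_num_den x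
    rw [hxd, Nat.cast_pow] at h
    simpa [← pow_mul] using h.pow_right (n := 3)
  set β := Y * u with hβ
  set g := -(X * v * (u * X + 1)) + k * u ^ 2 with hg
  have hβX : β ^ 2 - X = (d : ℤ) ^ 6 * g := by
    rw [hβ, hg]
    linear_combination u ^ 2 * hYX + X * (u * X + 1) * huv
  set F : CubicForm :=
    ⟨(d : ℤ) ^ 3, 3 * β, 3 * ((d : ℤ) ^ 3 * g), β * g + 2 * Y * v⟩ with hF
  have hh : F.b ^ 2 - 3 * F.a * F.c = 9 * X := by
    simp only [hF]; linear_combination 9 * hβX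
  have ht : covT F = 54 * Y := by
    simp only [covT, hF]
    linear_combination 54 * β * hβX + 54 * Y * huv
  have hdisc : F.disc = -108 * k := by
    have hs := F.syzygy
    rw [hh, show 2 * F.b ^ 3 - 9 * F.a * F.b * F.c + 27 * F.a ^ 2 * F.d = 54 * Y from ht] at hs
    refine mul_left_cancel₀ (show (27 : ℤ) * F.a ^ 2 ≠ 0 from
      mul_ne_zero (by norm_num) (pow_ne_zero _ (pow_ne_zero _ hd0))) ?_
    simp only [hF] at hs ⊢
    linear_combination -hs - 2916 * hYX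
  refine ⟨⟨F, X, Y, d, hd0, ?_, ?_, rfl, hh, ht, hdisc, dvd_mul_right _ _, dvd_mul_right _ _⟩⟩
  · have := Rat.mul_den_eq_num x
    rw [hxd] at this
    simpa using this
  · have := Rat.mul_den_eq_num y
    rw [hyd] at this
    simpa using this

variable {k : ℤ} {x y : ℚ}

/-- **A rational zero: in the image.** -/
theorem PointForm.anisotropic (Φ : PointForm k x y) (hk : (k : ℚ) ≠ 0)
    (h : (mord (k : ℚ)).toAffine.Nonsingular x y)
    (hnd : Affine.Point.some x y h ∉ (dualHom hk).range) : Φ.F.Anisotropic := by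
  intro p r h0
  have hD : (Φ.D : ℚ) ≠ 0 := Int.cast_ne_zero.mpr Φ.hD
  by_cases hr : r = 0
  · subst hr
    simp only [CubicForm.eval, Int.cast_id, Φ.ha] at h0
    refine ⟨?_, rfl⟩
    by_contra hp
    exact mul_ne_zero (pow_ne_zero 3 Φ.hD) (pow_ne_zero 3 hp) (by linarith)
  exfalso
  have hr' : (r : ℚ) ≠ 0 := Int.cast_ne_zero.mpr hr
  set z : ℚ := (3 * Φ.F.a * p + Φ.F.b * r) / (3 * Φ.D * r) with hz
  refine hnd (mem_range_of_root hk (t := z) h ?_)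
  have h0' := congrArg (Int.cast : ℤ → ℚ) h0
  have hh := congrArg (Int.cast : ℤ → ℚ) Φ.hh
  have ht := congrArg (Int.cast : ℤ → ℚ) Φ.ht
  simp only [CubicForm.eval, Int.cast_id, covT] at h0' ht
  push_cast at h0' hh ht
  have hzr : z * (3 * (Φ.D : ℚ) * r) = 3 * Φ.F.a * p + Φ.F.b * r := by
    rw [hz, div_mul_cancel₀ _ (mul_ne_zero (mul_ne_zero three_ne_zero hD) hr')]
  refine (mul_eq_zero.mp (?_ : (3 * (Φ.D : ℚ) * r) ^ 3 * (z ^ 3 - 3 * x * z + 2 * y)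
      = 0)).resolve_left
    (pow_ne_zero 3 (mul_ne_zero (mul_ne_zero three_ne_zero hD) hr'))
  linear_combination 27 * (Φ.F.a : ℚ) ^ 2 * h0' +
    ((z * (3 * (Φ.D : ℚ) * r)) ^ 2 + z * (3 * (Φ.D : ℚ) * r) * (3 * Φ.F.a * p + Φ.F.b * r) +
      (3 * Φ.F.a * p + Φ.F.b * r) ^ 2 - 27 * (x * (Φ.D : ℚ) ^ 2) * (r : ℚ) ^ 2) * hzr -
    27 * (r : ℚ) ^ 2 * (3 * Φ.F.a * p + Φ.F.b * r) * Φ.hx +
    3 * (r : ℚ) ^ 2 * (3 * Φ.F.a * p + Φ.F.b * r) * hh + 54 * (r : ℚ) ^ 3 * Φ.hy -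
    (r : ℚ) ^ 3 * ht

/-- The descent identity in every ring with a square root of `k`. -/
theorem PointForm.descent_identity {x' y' : ℚ} (Φ : PointForm k x y) (Ψ : PointForm k x' y')
    (he : Twisted Φ.F Ψ.F) :
    ∃ e : ℤ, (e = 1 ∨ e = -1) ∧ ∀ (R : Type) [CommRing R] (s : R), s ^ 2 = (k : R) →
      ∃ L L' : R, L * L' = 4 * (9 * (Φ.X : R)) * (9 * (Ψ.X : R)) ∧
        54 * (8 * (9 * (Φ.X : R)) ^ 3 * ((Ψ.Y : R) + (e : R) * s * (Ψ.D : R) ^ 3)) =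
          54 * (((Φ.Y : R) + s * (Φ.D : R) ^ 3) * L ^ 3) := by
  obtain ⟨M, hM, hG⟩ := he
  set e := M.det with hedef
  have he2 : e * e = 1 := isUnit_mul_self hM
  have hdet : M 0 0 * M 1 1 - M 0 1 * M 1 0 = e := (Matrix.det_fin_two M).symm
  set p := M 0 0
  set r := M 1 0
  -- the covariants at `(p, r)`
  have h1 : e * Ψ.D ^ 3 = Φ.F.eval p r := by
    have := congrArg CubicForm.a hG
    simp only [scale, actMat, CubicForm.act, Ψ.ha] at this
    linear_combination e * this + (Φ.F.eval p r) * he2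
  have h2 : 54 * Ψ.Y = covEval Φ.F p r := by
    have h := covT_act Φ.F p (M 0 1) r (M 1 1)
    rw [hdet] at h
    rw [← Ψ.ht, hG, show covT (scale e (actMat Φ.F M)) = e ^ 3 * covT (actMat Φ.F M) by
      simp only [covT, scale]; ring, show covT (actMat Φ.F M) = e ^ 3 * covEval Φ.F p r from h]
    linear_combination covEval Φ.F p r * (e ^ 4 + e ^ 2 + 1) * he2
  have h3 : 9 * Ψ.X = Φ.F.hess p r := by
    have h := Φ.F.hess_act (R := ℤ) p (M 0 1) r (M 1 1) 1 0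
    simp only [Int.cast_id, hdet] at h
    rw [show (Φ.F.act p (M 0 1) r (M 1 1)).hess (1 : ℤ) 0 =
      (Φ.F.act p (M 0 1) r (M 1 1)).b ^ 2 - 3 * (Φ.F.act p (M 0 1) r (M 1 1)).a *
        (Φ.F.act p (M 0 1) r (M 1 1)).c by simp [CubicForm.hess]] at h
    rw [← Ψ.hh, hG]
    simp only [scale, actMat, mul_one, mul_zero, add_zero] at h ⊢
    linear_combination e ^ 2 * h + Φ.F.hess p r * (e ^ 2 + 1) * he2
  refine ⟨e, Int.isUnit_iff.mp hM, fun R _ s hs => ?_⟩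
  have hδ : (18 * s) ^ 2 = -3 * ((Φ.F.disc : ℤ) : R) := by
    rw [Φ.hdisc]; push_cast; linear_combination 324 * hs
  have key := cube_identity Φ.F (18 * s) (p : R) (r : R) hδ
  have c1 : Φ.F.eval (p : R) (r : R) = (e : R) * (Ψ.D : R) ^ 3 := by
    have := congrArg (Int.cast : ℤ → R) h1
    simp only [CubicForm.eval, Int.cast_id] at this ⊢
    push_cast at this
    linear_combination -this
  have c2 : covEval Φ.F (p : R) (r : R) = 54 * (Ψ.Y : R) := by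
    have := congrArg (Int.cast : ℤ → R) h2
    simp only [covEval, Int.cast_id] at this ⊢
    push_cast at this
    linear_combination -this
  have c3 : Φ.F.hess (p : R) (r : R) = 9 * (Ψ.X : R) := by
    have := congrArg (Int.cast : ℤ → R) h3
    simp only [CubicForm.hess, Int.cast_id] at this ⊢
    push_cast at this
    linear_combination -this
  have c4 : (Φ.F.b : R) ^ 2 - 3 * Φ.F.a * Φ.F.c = 9 * (Φ.X : R) := by
    have := congrArg (Int.cast : ℤ → R) Φ.hh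
    push_cast at this
    exact this
  have c5 : (covT Φ.F : R) = 54 * (Φ.Y : R) := by rw [Φ.ht]; push_cast; ring
  have c6 : (Φ.F.a : R) = (Φ.D : R) ^ 3 := by rw [Φ.ha]; push_cast; ring
  refine ⟨2 * (9 * (Φ.X : R)) * p + ((Φ.F.b : R) * Φ.F.c - 9 * Φ.F.a * Φ.F.d + 18 * s) * r,
    2 * (9 * (Φ.X : R)) * p + ((Φ.F.b : R) * Φ.F.c - 9 * Φ.F.a * Φ.F.d - 18 * s) * r, ?_, ?_⟩
  · rw [← c3, ← c4]
    simp only [CubicForm.hess, CubicForm.disc] at hδ ⊢
    push_cast at hδ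
    linear_combination -(r : R) ^ 2 * hδ
  · rw [c4, c1, c2, c5] at key
    linear_combination key + 54 * s *
      (2 * (9 * (Φ.X : R)) * p + ((Φ.F.b : R) * Φ.F.c - 9 * Φ.F.a * Φ.F.d + 18 * s) * r) ^ 3 * c6

/-- **Equivalent forms: a cube product.** -/
theorem PointForm.cube_product {x' y' : ℚ} (Φ : PointForm k x y) (Ψ : PointForm k x' y')
    (hy' : y' ^ 2 = x' ^ 3 + (k : ℚ)) (hx : x ≠ 0) (hx' : x' ≠ 0) (he : Twisted Φ.F Ψ.F) :
    ∃ σ : ℚ, (σ = 1 ∨ σ = -1) ∧ ∃ w : SqAlg (k : ℚ),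
      (ratS (k : ℚ) y + sRoot (k : ℚ)) * (ratS (k : ℚ) (σ * y') + sRoot (k : ℚ)) = w ^ 3 := by
  obtain ⟨e, heq, hid⟩ := Φ.descent_identity Ψ he
  set σ : ℚ := (e : ℚ) with hσ
  have hσ2 : σ * σ = 1 := by rcases heq with h | h <;> simp [hσ, h]
  set s := sRoot (k : ℚ)
  set ι := ratS (k : ℚ)
  have hs' : s ^ 2 = ι (k : ℚ) := sRoot_sq _
  obtain ⟨L, L', hL, hid⟩ := hid (SqAlg (k : ℚ)) s (by rw [hs', map_intCast])
  simp only [← map_intCast ι, ← hσ] at hid hL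
  have hD : (Φ.D : ℚ) ≠ 0 := Int.cast_ne_zero.mpr Φ.hD
  have hD' : (Ψ.D : ℚ) ≠ 0 := Int.cast_ne_zero.mpr Ψ.hD
  have hX0 : (Φ.X : ℚ) ≠ 0 := by rw [← Φ.hx]; exact mul_ne_zero hx (pow_ne_zero 2 hD)
  have hX0' : (Ψ.X : ℚ) ≠ 0 := by rw [← Ψ.hx]; exact mul_ne_zero hx' (pow_ne_zero 2 hD')
  set T : ℚ := 4 * (9 * (Φ.X : ℚ)) * (9 * (Ψ.X : ℚ)) with hT
  set c : ℚ := (Ψ.D : ℚ) * x' / (2 * (9 * (Ψ.X : ℚ)) * (Φ.D : ℚ)) with hc
  have hU : IsUnit (ι ((Φ.D : ℚ) ^ 3 * T ^ 3)) :=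
    (isUnit_iff_ne_zero.mpr (mul_ne_zero (pow_ne_zero 3 hD) (pow_ne_zero 3
      (mul_ne_zero (mul_ne_zero (by norm_num) (mul_ne_zero (by norm_num) hX0))
        (mul_ne_zero (by norm_num) hX0'))))).map _
  have hTL : ι T = L * L' := by rw [hL, hT]; simp [map_ofNat]
  have hcD : ι c * ι (Φ.D : ℚ) * ι T = 2 * (9 * ι (Φ.X : ℚ)) * ι (Ψ.D : ℚ) * ι x' := by
    have : c * (Φ.D : ℚ) * T = 2 * (9 * (Φ.X : ℚ)) * (Ψ.D : ℚ) * x' := by
      rw [hc, hT]; field_simp; ring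
    simpa [map_ofNat] using congrArg ι this
  have he3 : ι σ * ι σ = 1 := by rw [← map_mul, hσ2, map_one]
  have eq' : (ι y' + ι σ * s) * (ι y' - ι σ * s) = ι x' ^ 3 := by
    have h := congrArg ι hy'
    simp only [map_add, map_pow] at h
    linear_combination h - s ^ 2 * he3 - hs'
  have eY : ι (Φ.Y : ℚ) = ι y * ι (Φ.D : ℚ) ^ 3 := by rw [← Φ.hy]; simp
  have eY' : ι (Ψ.Y : ℚ) = ι y' * ι (Ψ.D : ℚ) ^ 3 := by rw [← Ψ.hy]; simp
  rw [eY, eY'] at hid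
  have e1 : 8 * (9 * ι (Φ.X : ℚ)) ^ 3 * ι (Ψ.D : ℚ) ^ 3 * ι x' ^ 3 =
      ι (Φ.D : ℚ) ^ 3 * (ι y + s) * (ι y' - ι σ * s) * L ^ 3 := by
    have h54 : IsUnit (ι 54) := (isUnit_iff_ne_zero.mpr (by norm_num)).map _
    rw [map_ofNat] at h54
    refine h54.mul_left_cancel ?_
    rw [← eq']
    linear_combination (ι y' - ι σ * s) * hid
  refine ⟨-σ, by rcases heq with h | h <;> simp [hσ, h], -ι σ * ι c * L', hU.mul_left_cancel ?_⟩
  rw [map_mul, map_pow, map_pow, show ι (-σ * y') + s = -ι σ * (ι y' - ι σ * s) by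
    simp only [map_mul, map_neg]
    linear_combination -s * he3]
  calc ι (Φ.D : ℚ) ^ 3 * ι T ^ 3 * ((ι y + s) * (-ι σ * (ι y' - ι σ * s)))
      = -ι σ * L' ^ 3 *
          (ι (Φ.D : ℚ) ^ 3 * (ι y + s) * (ι y' - ι σ * s) * L ^ 3) := by rw [hTL]; ring
    _ = -ι σ * L' ^ 3 * (ι c * ι (Φ.D : ℚ) * ι T) ^ 3 := by rw [← e1, hcD]; ring
    _ = _ := by linear_combination ι σ * L' ^ 3 * ι c ^ 3 * ι (Φ.D : ℚ) ^ 3 * ι T ^ 3 * he3

end FA.MordellAverage
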