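import Fermat.Agent.Frob.VarChange
import Mathlib.Analysis.Complex.Polynomial.Basic

/-!
# The isogenies of degree three of the Mordell curves

Over a field with a primitive cube root of unity `ζ`, the endomorphism `1 - [ζ]` of `y² = x³ + k`
followed by a change of variables is `(x, y) ↦ ((x³ + 4 k)/x², y (x³ - 8 k)/x³)`, a homomorphism
to `y² = x³ - 27 k`; hence that map is additive on rational points, and applying it twice gives
multiplication by three.
-/

set_option autoImplicit false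
set_option linter.style.haveILetI false
set_option linter.unusedSectionVars false

noncomputable section

open WeierstrassCurve FA.Frob
namespace FA.MordellAverage

/-- `y² = x³ + k`. -/
abbrev mord {F : Type*} [Field F] (k : F) : WeierstrassCurve F := ⟨0, 0, 0, 0, k⟩

variable {F : Type*} [Field F] [DecidableEq F] {k l m : F}

theorem mord_equation {x y : F} : (mord k).toAffine.Equation x y ↔ y ^ 2 = x ^ 3 + k := by
  rw [Affine.equation_iff]; simp

theorem mord_Δ : (mord k).Δ = -432 * k ^ 2 := by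
  simp only [WeierstrassCurve.Δ, WeierstrassCurve.b₂, WeierstrassCurve.b₄, WeierstrassCurve.b₆,
    WeierstrassCurve.b₈]
  ring

section CharZero

variable [CharZero F]

theorem isElliptic_mord (hk : k ≠ 0) : (mord k).IsElliptic :=
  ⟨by rw [mord_Δ, isUnit_iff_ne_zero]; exact mul_ne_zero (by norm_num) (pow_ne_zero _ hk)⟩

theorem mord_nonsingular (hk : k ≠ 0) {x y : F} (h : y ^ 2 = x ^ 3 + k) :
    (mord k).toAffine.Nonsingular x y :=
  haveI := isElliptic_mord hk
  Affine.equation_iff_nonsingular.mp (mord_equation.mpr h)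

theorem mord_y_ne (hk : k ≠ 0) {y : F} (h : (mord k).toAffine.Nonsingular 0 y) : y ≠ 0 := by
  rintro rfl
  have := mord_equation.mp h.1
  simp at this
  exact hk this.symm

theorem isog_equation (hl : l = -27 * k) {x y : F} (hx : x ≠ 0) (h : y ^ 2 = x ^ 3 + k) :
    (y * (x ^ 3 - 8 * k) / x ^ 3) ^ 2 = ((x ^ 3 + 4 * k) / x ^ 2) ^ 3 + l := by
  subst hl
  field_simp
  linear_combination (x ^ 3 - 8 * k) ^ 2 * h

/-- The formula of the isogeny. -/
def isogFun (hk : k ≠ 0) (hl : l = -27 * k) :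
    (mord k).toAffine.Point → (mord l).toAffine.Point
  | .zero => 0
  | .some x y h =>
    if hx : x = 0 then 0
    else .some ((x ^ 3 + 4 * k) / x ^ 2) (y * (x ^ 3 - 8 * k) / x ^ 3)
      (mord_nonsingular (hl ▸ mul_ne_zero (by norm_num) hk)
        (isog_equation hl hx (mord_equation.mp h.1)))

theorem isogFun_zero (hk : k ≠ 0) (hl : l = -27 * k) : isogFun hk hl 0 = 0 := rfl

theorem isogFun_some_zero (hk : k ≠ 0) (hl : l = -27 * k) {y : F}
    (h : (mord k).toAffine.Nonsingular 0 y) : isogFun hk hl (.some 0 y h) = 0 := dif_pos rfl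

theorem isogFun_some (hk : k ≠ 0) (hl : l = -27 * k) {x y : F} (hx : x ≠ 0)
    (h : (mord k).toAffine.Nonsingular x y) :
    isogFun hk hl (.some x y h) = .some ((x ^ 3 + 4 * k) / x ^ 2) (y * (x ^ 3 - 8 * k) / x ^ 3)
      (mord_nonsingular (hl ▸ mul_ne_zero (by norm_num) hk)
        (isog_equation hl hx (mord_equation.mp h.1))) := dif_neg hx

end CharZero

/-- The scaling of the coordinates by `u`. -/
theorem scale_smul (u : Fˣ) (h : l = (u : F) ^ 6 * k) :
    (⟨u, 0, 0, 0⟩ : VariableChange F) • mord l = mord k := by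
  have hu : (u : F) ≠ 0 := u.ne_zero
  ext <;> simp [variableChange_a₁, variableChange_a₂, variableChange_a₃, variableChange_a₄,
    variableChange_a₆, h, hu]

/-- `(x, y) ↦ (u² x, u³ y)`. -/
def scaleHom [(mord k).IsElliptic] [(mord l).IsElliptic] (u : Fˣ) (h : l = (u : F) ^ 6 * k) :
    (mord k).toAffine.Point ≃+ (mord l).toAffine.Point :=
  vcEquiv ⟨u, 0, 0, 0⟩ (scale_smul u h)

theorem scaleHom_some [(mord k).IsElliptic] [(mord l).IsElliptic] (u : Fˣ)
    (h : l = (u : F) ^ 6 * k) {x y : F} (hP : (mord k).toAffine.Nonsingular x y) :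
    ∃ hQ : (mord l).toAffine.Nonsingular ((u : F) ^ 2 * x) ((u : F) ^ 3 * y),
      scaleHom u h (.some x y hP) = .some ((u : F) ^ 2 * x) ((u : F) ^ 3 * y) hQ := by
  have e1 : vcX (⟨u, 0, 0, 0⟩ : VariableChange F) x = (u : F) ^ 2 * x := by simp [vcX]
  have e2 : vcY (⟨u, 0, 0, 0⟩ : VariableChange F) x y = (u : F) ^ 3 * y := by simp [vcY]
  refine ⟨?_, ?_⟩
  · have := (Affine.equation_iff_nonsingular.mp
      ((equation_vc _ (scale_smul u h) x y).mpr hP.1))
    rwa [e1, e2] at this
  · rw [scaleHom, vcEquiv_some]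
    simp only [Affine.Point.some.injEq]
    exact ⟨e1, e2⟩

section RootOfUnity

variable [CharZero F] {ζ : F} (hζ : ζ ^ 2 + ζ + 1 = 0)

include hζ in
theorem zeta_ne_zero : ζ ≠ 0 := by rintro rfl; simp at hζ

include hζ in
theorem zeta_ne_one : ζ ≠ 1 := by rintro rfl; norm_num at hζ

include hζ in
theorem zeta_cube : ζ ^ 3 = 1 := by linear_combination (ζ - 1) * hζ

/-- The automorphism `(x, y) ↦ (ζ x, y)`. -/
def rot [(mord k).IsElliptic] : (mord k).toAffine.Point ≃+ (mord k).toAffine.Point :=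
  scaleHom (Units.mk0 (ζ ^ 2) (pow_ne_zero 2 (zeta_ne_zero hζ))) (by
    rw [Units.val_mk0]
    linear_combination -k * (ζ ^ 9 + ζ ^ 6 + ζ ^ 3 + 1) * zeta_cube hζ)

theorem rot_some [(mord k).IsElliptic] {x y : F} (h : (mord k).toAffine.Nonsingular x y) :
    ∃ hQ : (mord k).toAffine.Nonsingular (ζ * x) y,
      rot hζ (.some x y h) = .some (ζ * x) y hQ := by
  obtain ⟨hQ, e⟩ := scaleHom_some (k := k) (l := k)
    (Units.mk0 (ζ ^ 2) (pow_ne_zero 2 (zeta_ne_zero hζ))) (by
      rw [Units.val_mk0]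
      linear_combination -k * (ζ ^ 9 + ζ ^ 6 + ζ ^ 3 + 1) * zeta_cube hζ) h
  have e1 : ((ζ ^ 2) ^ 2 : F) * x = ζ * x := by linear_combination ζ * x * zeta_cube hζ
  have e2 : ((ζ ^ 2) ^ 3 : F) * y = y := by linear_combination (ζ ^ 3 + 1) * y * zeta_cube hζ
  refine ⟨?_, ?_⟩
  · simp only [Units.val_mk0] at hQ
    rwa [e1, e2] at hQ
  · rw [rot, e]
    simp only [Affine.Point.some.injEq, Units.val_mk0]
    exact ⟨e1, e2⟩

/-- **The three rotations of a point sum to zero.** -/
theorem add_rot [(mord k).IsElliptic] (hk : k ≠ 0) (P : (mord k).toAffine.Point) :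
    P + rot hζ P + rot hζ (rot hζ P) = 0 := by
  rcases P with _ | ⟨x, y, h⟩
  · simp [← Affine.Point.zero_def]
  obtain ⟨h1, e1⟩ := rot_some hζ h
  obtain ⟨h2, e2⟩ := rot_some hζ h1
  rw [e1, e2]
  have hne : ¬ (x = ζ * x ∧ y = (mord k).toAffine.negY (ζ * x) y) := by
    rintro ⟨hx, hy⟩
    have : x = 0 := by
      by_contra hx0
      exact zeta_ne_one hζ (mul_right_cancel₀ hx0 (by linear_combination -hx))
    subst this
    simp [Affine.negY] at hy
    exact mord_y_ne hk h (by linear_combination hy / 2)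
  have hs : (mord k).toAffine.slope x (ζ * x) y y = 0 := by
    by_cases hx : x = ζ * x
    · have hy : y ≠ (mord k).toAffine.negY (ζ * x) y := fun e => hne ⟨hx, e⟩
      rw [Affine.slope_of_Y_ne hx hy]
      have : x = 0 := by
        by_contra hx0
        exact zeta_ne_one hζ (mul_right_cancel₀ hx0 (by linear_combination -hx))
      simp [this]
    · rw [Affine.slope_of_X_ne hx]; simp
  rw [Affine.Point.add_some hne, Affine.Point.add_of_Y_eq]
  · simp [hs, Affine.addX]
    linear_combination -x * hζ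
  · simp [hs, Affine.addY, Affine.negAddY, Affine.negY]

/-- `(1 - [ζ])² = -3 [ζ]`. -/
theorem sq_one_sub_rot [(mord k).IsElliptic] (hk : k ≠ 0) (P : (mord k).toAffine.Point) :
    (P - rot hζ P) - rot hζ (P - rot hζ P) = 3 • (-rot hζ P) := by
  rw [map_sub]
  have h := add_rot hζ hk P
  rw [← sub_eq_zero, ← h]
  abel

/-- The unit `1 - ζ`. -/
def oneSubZeta : Fˣ := Units.mk0 (1 - ζ) (sub_ne_zero.mpr (Ne.symm (zeta_ne_one hζ)))

include hζ in
theorem oneSubZeta_pow_six : (1 - ζ) ^ 6 = -27 := by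
  linear_combination (ζ ^ 4 - 7 * ζ ^ 3 + 21 * ζ ^ 2 - 34 * ζ + 28) * hζ

/-- **The formula is `1 - [ζ]` followed by a scaling.** -/
theorem isogFun_eq [(mord k).IsElliptic] [(mord l).IsElliptic] (hk : k ≠ 0) (hl : l = -27 * k)
    (P : (mord k).toAffine.Point) :
    isogFun hk hl P = scaleHom (oneSubZeta hζ) (by
      rw [hl]; simp only [oneSubZeta, Units.val_mk0, oneSubZeta_pow_six hζ]) (P - rot hζ P) := by
  rcases P with _ | ⟨x, y, h⟩
  · simp [← Affine.Point.zero_def, isogFun_zero]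
  obtain ⟨h1, e1⟩ := rot_some hζ h
  rw [e1]
  by_cases hx : x = 0
  · subst hx
    rw [isogFun_some_zero]
    simp
  have hz : 1 - ζ ≠ 0 := sub_ne_zero.mpr (Ne.symm (zeta_ne_one hζ))
  have hxx : x ≠ ζ * x := fun e => zeta_ne_one hζ (mul_right_cancel₀ hx (by linear_combination -e))
  rw [isogFun_some hk hl hx, sub_eq_add_neg (Affine.Point.some x y h), Affine.Point.neg_some,
    Affine.Point.add_of_X_ne hxx]
  obtain ⟨hQ, e⟩ := scaleHom_some (oneSubZeta hζ) (show l = _ * k by
      rw [hl]; simp only [oneSubZeta, Units.val_mk0, oneSubZeta_pow_six hζ])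
    (Affine.nonsingular_add h ((Affine.nonsingular_neg (W' := (mord k).toAffine) _ _).mpr h1)
      fun e => hxx e.1)
  refine Eq.trans ?_ e.symm
  have hy := mord_equation.mp h.1
  have hsl : (mord k).toAffine.slope x (ζ * x) y ((mord k).toAffine.negY (ζ * x) y) =
      2 * y / ((1 - ζ) * x) := by
    rw [Affine.slope_of_X_ne hxx]
    simp [Affine.negY]
    ring
  simp only [Affine.Point.some.injEq, oneSubZeta, Units.val_mk0]
  rw [hsl]
  simp only [Affine.addY, Affine.negAddY, Affine.addX, Affine.negY]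
  simp only [zero_mul, sub_zero, add_zero]
  constructor
  · field_simp
    linear_combination x ^ 3 * (ζ - 2) * hζ - 4 * hy
  · field_simp
    linear_combination 8 * y * hy - 3 * y * x ^ 3 * (ζ - 2) * hζ

include hζ in
/-- **Twice the isogeny is three times.** -/
theorem isogFun_isogFun [(mord k).IsElliptic] [(mord m).IsElliptic] (hk : k ≠ 0)
    (hl : l = -27 * k) (hl0 : l ≠ 0) (hm : m = -27 * l) (u : Fˣ) (hu : (u : F) = 3)
    (h : m = (u : F) ^ 6 * k) (P : (mord k).toAffine.Point) :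
    isogFun hl0 hm (isogFun hk hl P) = scaleHom u h (3 • P) := by
  haveI := isElliptic_mord hl0
  rw [isogFun_eq hζ hk hl, isogFun_eq hζ hl0 hm]
  have hcomm : ∀ (v : Fˣ) (hv : l = (v : F) ^ 6 * k) (Q : (mord k).toAffine.Point),
      rot hζ (scaleHom v hv Q) = scaleHom v hv (rot hζ Q) := by
    intro v hv Q
    rcases Q with _ | ⟨x, y, hQ⟩
    · simp [← Affine.Point.zero_def]
    obtain ⟨_, e1⟩ := scaleHom_some v hv hQ
    obtain ⟨h2, e2⟩ := rot_some hζ hQ
    obtain ⟨_, e3⟩ := scaleHom_some v hv h2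
    rw [e1, e2, e3, (rot_some hζ _).2]
    simp only [Affine.Point.some.injEq]
    exact ⟨by ring, trivial⟩
  rw [hcomm, ← map_sub, sq_one_sub_rot hζ hk, map_nsmul, map_nsmul, map_nsmul]
  congr 1
  rcases P with _ | ⟨x, y, hP⟩
  · simp [← Affine.Point.zero_def]
  obtain ⟨h2, e2⟩ := rot_some hζ hP
  rw [e2, Affine.Point.neg_some]
  obtain ⟨h3, e3⟩ := scaleHom_some (oneSubZeta hζ) (show l = _ * k by
      rw [hl]; simp only [oneSubZeta, Units.val_mk0, oneSubZeta_pow_six hζ])
    ((Affine.nonsingular_neg (W' := (mord k).toAffine) _ _).mpr h2)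
  obtain ⟨h4, e4⟩ := scaleHom_some (oneSubZeta hζ) (show m = _ * l by
      rw [hm]; simp only [oneSubZeta, Units.val_mk0, oneSubZeta_pow_six hζ]) h3
  rw [e3, e4, (scaleHom_some u h hP).2]
  simp only [Affine.Point.some.injEq, oneSubZeta, Units.val_mk0, hu, Affine.negY]
  constructor
  · linear_combination x * (ζ ^ 3 - 5 * ζ ^ 2 + 10 * ζ - 9) * hζ
  · linear_combination
      y * (-(ζ ^ 4) + 7 * ζ ^ 3 - 21 * ζ ^ 2 + 34 * ζ - 28) * hζ

end RootOfUnity

end FA.MordellAverage
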