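import Fermat.Agent.MordellAverage.Isogeny

/-!
# The isogenies on rational points

The rational points embed into the complex ones compatibly with the formula of the isogeny, which
is therefore additive; followed by the dual isogeny it is multiplication by three.
-/

set_option autoImplicit false
set_option linter.style.haveILetI false

noncomputable section

open WeierstrassCurve FA.Frob
open scoped Classical

namespace FA.MordellAverage

variable {k l : ℚ}

theorem baseChange_smul (k : ℚ) :
    (1 : VariableChange ℂ) • mord (k : ℂ) = (mord k)⁄ℂ := by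
  rw [one_smul]
  ext <;> simp [WeierstrassCurve.baseChange, WeierstrassCurve.map]

theorem exists_zeta : ∃ ζ : ℂ, ζ ^ 2 + ζ + 1 = 0 := by
  obtain ⟨ζ, hζ⟩ := IsAlgClosed.exists_root
    (Polynomial.X ^ 2 + Polynomial.X + 1 : Polynomial ℂ) (by
      rw [show (Polynomial.X ^ 2 + Polynomial.X + 1 : Polynomial ℂ).degree = 2 by compute_degree!]
      norm_num)
  exact ⟨ζ, by simpa using hζ⟩

/-- The rational points as complex points. -/
def complexPoint (hk : k ≠ 0) :
    (mord k).toAffine.Point →+ (mord (k : ℂ)).toAffine.Point :=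
  haveI := isElliptic_mord hk
  haveI : (mord (k : ℂ)).IsElliptic := isElliptic_mord (by exact_mod_cast hk)
  haveI : ((mord k)⁄ℂ).IsElliptic := by rw [← baseChange_smul, one_smul]; infer_instance
  (vcEquiv 1 (baseChange_smul k)).toAddMonoidHom.comp
    (Affine.Point.map (W' := (mord k).toAffine) (Algebra.ofId ℚ ℂ))

theorem complexPoint_some (hk : k ≠ 0) {x y : ℚ} (h : (mord k).toAffine.Nonsingular x y) :
    ∃ h' : (mord (k : ℂ)).toAffine.Nonsingular (x : ℂ) (y : ℂ),
      complexPoint hk (.some x y h) = .some (x : ℂ) (y : ℂ) h' := by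
  refine ⟨mord_nonsingular (by exact_mod_cast hk) (by exact_mod_cast mord_equation.mp h.1), ?_⟩
  simp only [complexPoint, AddMonoidHom.comp_apply, AddEquiv.coe_toAddMonoidHom]
  erw [Affine.Point.map_some, vcEquiv_some]
  simp [vcX, vcY, VariableChange.one_def]

theorem complexPoint_injective (hk : k ≠ 0) : Function.Injective (complexPoint hk) := by
  haveI := isElliptic_mord hk
  haveI : (mord (k : ℂ)).IsElliptic := isElliptic_mord (by exact_mod_cast hk)
  haveI : ((mord k)⁄ℂ).IsElliptic := by rw [← baseChange_smul, one_smul]; infer_instance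
  exact (AddEquiv.injective (vcEquiv 1 (baseChange_smul k))).comp
    (Affine.Point.map_injective (W' := (mord k).toAffine) (Algebra.ofId ℚ ℂ))

theorem complexPoint_isogFun (hk : k ≠ 0) (hl : l = -27 * k) (hl0 : l ≠ 0)
    (P : (mord k).toAffine.Point) :
    complexPoint hl0 (isogFun hk hl P) =
      isogFun (k := (k : ℂ)) (by exact_mod_cast hk) (l := (l : ℂ)) (by exact_mod_cast hl)
        (complexPoint hk P) := by
  rcases P with _ | ⟨x, y, h⟩
  · simp [← Affine.Point.zero_def, isogFun_zero]
  obtain ⟨h', e⟩ := complexPoint_some hk h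
  rw [e]
  by_cases hx : x = 0
  · subst hx
    rw [isogFun_some_zero, map_zero]
    simp [isogFun]
  obtain ⟨_, e2⟩ := complexPoint_some hl0 (mord_nonsingular hl0
    (isog_equation hl hx (mord_equation.mp h.1)))
  rw [isogFun_some hk hl hx, e2, isogFun_some _ _ (by exact_mod_cast hx)]
  simp

theorem neg27_ne (hk : k ≠ 0) : -27 * k ≠ 0 := mul_ne_zero (by norm_num) hk

/-- **The isogeny of degree three.** -/
def isogHom (hk : k ≠ 0) :
    (mord k).toAffine.Point →+ (mord (-27 * k)).toAffine.Point where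
  toFun := isogFun hk rfl
  map_zero' := rfl
  map_add' P Q := by
    obtain ⟨ζ, hζ⟩ := exists_zeta
    haveI : (mord (k : ℂ)).IsElliptic := isElliptic_mord (by exact_mod_cast hk)
    haveI : (mord ((-27 * k : ℚ) : ℂ)).IsElliptic := isElliptic_mord (by exact_mod_cast neg27_ne hk)
    refine complexPoint_injective (neg27_ne hk) ?_
    rw [map_add (complexPoint (neg27_ne hk)), complexPoint_isogFun hk rfl (neg27_ne hk),
      complexPoint_isogFun hk rfl (neg27_ne hk), complexPoint_isogFun hk rfl (neg27_ne hk),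
      isogFun_eq hζ, isogFun_eq hζ, isogFun_eq hζ, ← map_add (scaleHom _ _)]
    congr 1
    simp only [map_add]
    abel

theorem isogHom_apply (hk : k ≠ 0) (P : (mord k).toAffine.Point) :
    isogHom hk P = isogFun hk rfl P := rfl

/-- `(x, y) ↦ (9 x, 27 y)`. -/
def tripleScale (hk : k ≠ 0) :
    (mord k).toAffine.Point ≃+ (mord (-27 * (-27 * k))).toAffine.Point :=
  haveI := isElliptic_mord hk
  haveI := isElliptic_mord (neg27_ne (neg27_ne hk))
  scaleHom (Units.mk0 (3 : ℚ) three_ne_zero)
    (show -27 * (-27 * k) = (3 : ℚ) ^ 6 * k by ring)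

theorem tripleScale_some (hk : k ≠ 0) {x y : ℚ} (h : (mord k).toAffine.Nonsingular x y) :
    ∃ h', tripleScale hk (.some x y h) = .some (9 * x) (27 * y) h' := by
  haveI := isElliptic_mord hk
  haveI := isElliptic_mord (neg27_ne (neg27_ne hk))
  obtain ⟨h', e⟩ := scaleHom_some (l := -27 * (-27 * k)) (Units.mk0 (3 : ℚ) three_ne_zero)
    (show _ = (3 : ℚ) ^ 6 * k by ring) h
  simp only [Units.val_mk0] at h'
  rw [show (3 : ℚ) ^ 2 = 9 by norm_num, show (3 : ℚ) ^ 3 = 27 by norm_num] at h'
  refine ⟨h', ?_⟩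
  rw [tripleScale, e]
  simp [Affine.Point.some.injEq]
  norm_num

/-- **Twice the isogeny is three times.** -/
theorem isogHom_isogHom (hk : k ≠ 0) (P : (mord k).toAffine.Point) :
    isogHom (neg27_ne hk) (isogHom hk P) = tripleScale hk (3 • P) := by
  obtain ⟨ζ, hζ⟩ := exists_zeta
  set m := -27 * (-27 * k)
  have hm0 : m ≠ 0 := neg27_ne (neg27_ne hk)
  have hkC : (k : ℂ) ≠ 0 := by exact_mod_cast hk
  haveI : (mord (k : ℂ)).IsElliptic := isElliptic_mord hkC
  haveI : (mord (m : ℂ)).IsElliptic := isElliptic_mord (by exact_mod_cast hm0)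
  refine complexPoint_injective hm0 ?_
  simp only [isogHom_apply]
  rw [complexPoint_isogFun (neg27_ne hk) rfl hm0, complexPoint_isogFun hk rfl (neg27_ne hk),
    isogFun_isogFun hζ hkC (by push_cast; ring) (by exact_mod_cast neg27_ne hk) (by simp)
      (Units.mk0 (3 : ℂ) three_ne_zero) rfl (by rw [Units.val_mk0]; simp; ring),
    ← map_nsmul]
  generalize 3 • P = R
  rcases R with _ | ⟨x, y, h⟩
  · simp [← Affine.Point.zero_def]
  obtain ⟨h', e⟩ := tripleScale_some hk h
  obtain ⟨hC, eC⟩ := complexPoint_some hk h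
  rw [e, eC, (complexPoint_some hm0 h').2]
  refine ((scaleHom_some (Units.mk0 (3 : ℂ) three_ne_zero) (by
    rw [Units.val_mk0]; simp; ring) hC).2).trans ?_
  simp [Affine.Point.some.injEq]
  norm_num

/-- **The dual isogeny.** -/
def dualHom (hk : k ≠ 0) : (mord (-27 * k)).toAffine.Point →+ (mord k).toAffine.Point :=
  (tripleScale hk).symm.toAddMonoidHom.comp (isogHom (neg27_ne hk))

/-- **Three times factors through the isogenies.** -/
theorem dualHom_isogHom (hk : k ≠ 0) (P : (mord k).toAffine.Point) :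
    dualHom hk (isogHom hk P) = 3 • P := by
  simp [dualHom, isogHom_isogHom hk P]

theorem dual_equation {x y : ℚ} (hx : x ≠ 0) (h : y ^ 2 = x ^ 3 + -27 * k) :
    (y * (x ^ 3 + 216 * k) / (27 * x ^ 3)) ^ 2 = ((x ^ 3 - 108 * k) / (9 * x ^ 2)) ^ 3 + k := by
  field_simp
  linear_combination 729 * (x ^ 3 + 216 * k) ^ 2 * h

theorem dualHom_some (hk : k ≠ 0) {x y : ℚ} (hx : x ≠ 0)
    (h : (mord (-27 * k)).toAffine.Nonsingular x y) :
    dualHom hk (.some x y h) =
      .some ((x ^ 3 - 108 * k) / (9 * x ^ 2)) (y * (x ^ 3 + 216 * k) / (27 * x ^ 3))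
        (mord_nonsingular hk (dual_equation hx (mord_equation.mp h.1))) := by
  simp only [dualHom, AddMonoidHom.comp_apply, AddEquiv.coe_toAddMonoidHom]
  rw [AddEquiv.symm_apply_eq, isogHom_apply, isogFun_some _ _ hx]
  obtain ⟨_, e⟩ := tripleScale_some hk
    (mord_nonsingular hk (dual_equation hx (mord_equation.mp h.1)))
  rw [e]
  simp only [Affine.Point.some.injEq]
  constructor <;> field_simp <;> ring

theorem dualHom_some_zero (hk : k ≠ 0) {y : ℚ} (h : (mord (-27 * k)).toAffine.Nonsingular 0 y) :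
    dualHom hk (.some 0 y h) = 0 := by
  simp only [dualHom, AddMonoidHom.comp_apply, isogHom_apply,
    isogFun_some_zero, map_zero]

/-- The isogeny is the dual one of the other curve after the scaling. -/
theorem range_isogHom (hk : k ≠ 0) : (isogHom hk).range = (dualHom (neg27_ne hk)).range := by
  have h : ∀ P, dualHom (neg27_ne hk) (tripleScale hk P) = isogHom hk P := by
    intro P
    rcases P with _ | ⟨x, y, hP⟩
    · simp [← Affine.Point.zero_def]
    obtain ⟨h', e⟩ := tripleScale_some hk hP
    rw [e, isogHom_apply]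
    by_cases hx : x = 0
    · subst hx
      rw [isogFun_some_zero]
      have : ∀ (x : ℚ) (g : (mord (-27 * (-27 * k))).toAffine.Nonsingular x (27 * y)), x = 0 →
          dualHom (neg27_ne hk) (.some x (27 * y) g) = 0 := by
        rintro x g rfl
        exact dualHom_some_zero _ g
      exact this _ h' (by ring)
    rw [isogFun_some _ _ hx, dualHom_some (neg27_ne hk) (mul_ne_zero (by norm_num) hx)]
    simp only [Affine.Point.some.injEq]
    constructor <;> field_simp <;> ring
  ext Q
  constructor
  · rintro ⟨P, rfl⟩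
    exact ⟨tripleScale hk P, h P⟩
  · rintro ⟨R, rfl⟩
    exact ⟨(tripleScale hk).symm R, by rw [← h, AddEquiv.apply_symm_apply]⟩

/-- The index of the image of the dual isogeny; `1` for `k = 0`. -/
def dualIndex (k : ℚ) : ℕ := if hk : k ≠ 0 then (dualHom hk).range.index else 1

theorem dualIndex_eq (hk : k ≠ 0) : dualIndex k = (dualHom hk).range.index := dif_pos hk

/-- **The index of the triples.** -/
theorem index_triples_le (hk : k ≠ 0) (h1 : dualIndex k ≠ 0) (h2 : dualIndex (-27 * k) ≠ 0) :
    (nsmulAddMonoidHom (α := (mord k).toAffine.Point) 3).range.index ≠ 0 ∧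
      (nsmulAddMonoidHom (α := (mord k).toAffine.Point) 3).range.index ≤
        dualIndex k * dualIndex (-27 * k) := by
  rw [dualIndex_eq hk] at h1 ⊢
  rw [dualIndex_eq (neg27_ne hk), ← range_isogHom hk] at h2 ⊢
  set ψ := dualHom hk
  set φ := isogHom hk
  have e : (nsmulAddMonoidHom (α := (mord k).toAffine.Point) 3).range = φ.range.map ψ := by
    rw [AddMonoidHom.map_range]
    congr 1
    ext P
    exact (dualHom_isogHom hk P).symm
  have hd : (φ.range ⊔ ψ.ker).index ∣ φ.range.index := AddSubgroup.index_dvd_of_le le_sup_left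
  rw [e, AddSubgroup.index_map]
  have h0 : (φ.range ⊔ ψ.ker).index ≠ 0 := fun e0 => h2 (Nat.eq_zero_of_zero_dvd (e0 ▸ hd))
  refine ⟨mul_ne_zero h0 h1, ?_⟩
  rw [mul_comm _ φ.range.index]
  exact Nat.mul_le_mul_right _ (Nat.le_of_dvd (Nat.pos_of_ne_zero h2) hd)

end FA.MordellAverage
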